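import Mathlib.NumberTheory.ModularForms.Bounds
import Fermat.Prelude.Def_ModularForm_HeckeOperatorForms

/-!
# The trivial bound for Hecke eigenvalues is strict

For a non-zero cusp form of weight two on `Γ₀(N)` with `T_q f = λ f` one has `‖λ‖ < q + 1`: the
function `|f(τ)| Im τ` attains its supremum, and in the equality case it would attain it at
`q ^ n τ` for every `n`, while it tends to zero at `∞`.
-/

set_option autoImplicit false

noncomputable section

open UpperHalfPlane CongruenceSubgroup Filter Matrix.SpecialLinearGroup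
open scoped MatrixGroups ModularForm Modular Topology

namespace Fermat.Agent.HeckeEigen

variable {N : ℕ} [NeZero N]

/-- `|f(τ)| Im τ`. -/
def supFun (f : CuspForm (Gamma0 N) 2) (τ : ℍ) : ℝ := ‖f τ‖ * τ.im

omit [NeZero N] in
theorem supFun_nonneg (f : CuspForm (Gamma0 N) 2) (τ : ℍ) : 0 ≤ supFun f τ :=
  mul_nonneg (norm_nonneg _) τ.im_pos.le

omit [NeZero N] in
theorem continuous_supFun (f : CuspForm (Gamma0 N) 2) : Continuous (supFun f) :=
  (CuspFormClass.holo f).continuous.norm.mul UpperHalfPlane.continuous_im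

omit [NeZero N] in
theorem supFun_sq (f : CuspForm (Gamma0 N) 2) (τ : ℍ) :
    supFun f τ ^ 2 = ‖petersson 2 f f τ‖ := by
  simp only [supFun, petersson, norm_mul, Complex.norm_conj, zpow_ofNat, norm_pow, Complex.norm_real,
    Real.norm_of_nonneg τ.im_pos.le]
  ring

theorem supFun_eq_sqrt (f : CuspForm (Gamma0 N) 2) (τ : ℍ) :
    supFun f τ = √‖petersson 2 f f τ‖ := by
  rw [← supFun_sq, Real.sqrt_sq (supFun_nonneg f τ)]

theorem supFun_smul (f : CuspForm (Gamma0 N) 2) {g : SL(2, ℤ)} (hg : g ∈ Gamma0 N) (τ : ℍ) :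
    supFun f (g • τ) = supFun f τ := by
  rw [supFun_eq_sqrt, supFun_eq_sqrt]
  congr 1
  exact SlashInvariantFormClass.norm_petersson_smul
    (Γ := (Gamma0 N : Subgroup (GL (Fin 2) ℝ))) (Subgroup.mem_map_of_mem _ hg)

open ConjAct Pointwise in
theorem tendsto_supFun (f : CuspForm (Gamma0 N) 2) (g : SL(2, ℤ)) :
    Tendsto (fun τ => supFun f (g • τ)) atImInfty (𝓝 0) := by
  have : ((toConjAct (g : GL (Fin 2) ℝ)⁻¹) •
      (Gamma0 N : Subgroup (GL (Fin 2) ℝ))).IsArithmetic := by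
    simpa [(show Rat.castHom ℝ = algebraMap ℚ ℝ by rfl), map_inv, map_mapGL]
      using! Subgroup.IsArithmetic.conj (Gamma0 N : Subgroup (GL (Fin 2) ℝ)) (mapGL ℚ g)⁻¹
  have h := (CuspFormClass.zero_at_infty (CuspForm.translate f g)).petersson_isZeroAtImInfty_left 2 _
    (CuspForm.translate f g)
  rw [IsZeroAtImInfty, ZeroAtFilter] at h
  have h1 := h.norm
  rw [norm_zero] at h1
  have h2 := (Real.continuous_sqrt.tendsto 0).comp h1
  rw [Real.sqrt_zero] at h2
  refine h2.congr fun τ => ?_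
  rw [Function.comp_apply, supFun_eq_sqrt, ← UpperHalfPlane.petersson_slash_SL]
  rfl

/-- The supremum is attained. -/
theorem exists_supFun_max (f : CuspForm (Gamma0 N) 2) {τ₁ : ℍ} (h₁ : supFun f τ₁ ≠ 0) :
    ∃ τ₀, supFun f τ₀ ≠ 0 ∧ ∀ τ, supFun f τ ≤ supFun f τ₀ := by
  classical
  have hpos : 0 < supFun f τ₁ := lt_of_le_of_ne (supFun_nonneg f τ₁) (Ne.symm h₁)
  have : Fintype (SL(2, ℤ) ⧸ Gamma0 N) := Subgroup.fintypeQuotientOfFiniteIndex
  choose y hy using fun r : SL(2, ℤ) ⧸ Gamma0 N =>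
    atImInfty_mem _ |>.mp ((tendsto_supFun f r.out⁻¹).eventually_lt_const hpos)
  let K : Set ℍ := insert τ₁ (⋃ r : SL(2, ℤ) ⧸ Gamma0 N,
    (fun τ => r.out⁻¹ • τ) '' ModularGroup.truncatedFundamentalDomain (y r))
  have hK : IsCompact K := (isCompact_iUnion fun r =>
    (ModularGroup.isCompact_truncatedFundamentalDomain (y r)).image
      (continuous_const_smul ((r.out⁻¹ : SL(2, ℤ)) : GL (Fin 2) ℝ))).insert _
  obtain ⟨τ₀, -, hmax⟩ := hK.exists_isMaxOn ⟨τ₁, Set.mem_insert _ _⟩
    (continuous_supFun f).continuousOn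
  have h10 : supFun f τ₁ ≤ supFun f τ₀ := hmax (Set.mem_insert _ _)
  refine ⟨τ₀, (hpos.trans_le h10).ne', fun τ => ?_⟩
  obtain ⟨g, hg⟩ := ModularGroup.exists_smul_mem_fd τ
  set r : SL(2, ℤ) ⧸ Gamma0 N := QuotientGroup.mk g
  have hmem : r.out⁻¹ * g ∈ Gamma0 N := QuotientGroup.eq.mp (QuotientGroup.out_eq' r)
  have e : supFun f τ = supFun f (r.out⁻¹ • g • τ) := by
    rw [← mul_smul, supFun_smul f hmem]
  rw [e]
  rcases le_total (y r) (g • τ).im with h | h
  · exact (le_of_lt (hy r _ h)).trans h10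
  · exact hmax (Or.inr (Set.mem_iUnion.mpr ⟨r, _, ⟨hg, h⟩, rfl⟩))

omit [NeZero N] in
/-- One step: the bound, with the diagonal term separated. -/
theorem norm_mul_supFun_le {q : ℕ} (hq : q ≠ 0) {f : CuspForm (Gamma0 N) 2} {c : ℂ}
    (hc : ∀ τ, ModularForm.heckeT 2 q f τ = c * f τ) {S : ℝ} (hS : ∀ τ, supFun f τ ≤ S) (τ : ℍ) :
    ‖c‖ * supFun f τ ≤ q * S + supFun f (ModularForm.heckeDiagMatrix q • τ) := by
  have hqr : (0 : ℝ) < q := by exact_mod_cast Nat.pos_of_ne_zero hq
  have him : ∀ j, (ModularForm.heckeMatrix q j • τ).im = τ.im / q := fun j => by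
    show ((ModularForm.heckeMatrix q j • τ : ℍ) : ℂ).im = _
    rw [ModularForm.coe_heckeMatrix_smul hq, Complex.div_natCast_im]
    simp
  have him' : (ModularForm.heckeDiagMatrix q • τ).im = q * τ.im := by
    show ((ModularForm.heckeDiagMatrix q • τ : ℍ) : ℂ).im = _
    rw [ModularForm.coe_heckeDiagMatrix_smul hq]
    simp
  calc ‖c‖ * supFun f τ = ‖ModularForm.heckeT 2 q f τ‖ * τ.im := by
        rw [hc, norm_mul, supFun, mul_assoc]
    _ ≤ ((q : ℝ)⁻¹ * ∑ j ∈ Finset.range q, ‖f (ModularForm.heckeMatrix q j • τ)‖ +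
          q * ‖f (ModularForm.heckeDiagMatrix q • τ)‖) * τ.im := by
        refine mul_le_mul_of_nonneg_right ?_ τ.im_pos.le
        rw [ModularForm.heckeT_apply 2 hq]
        refine (norm_add_le _ _).trans (add_le_add ?_ (le_of_eq ?_))
        · rw [norm_mul, norm_inv, Complex.norm_natCast]
          exact mul_le_mul_of_nonneg_left (norm_sum_le _ _) (by positivity)
        · rw [show (2 : ℤ) - 1 = 1 by norm_num, zpow_one, norm_mul, Complex.norm_natCast]
    _ = (∑ j ∈ Finset.range q, supFun f (ModularForm.heckeMatrix q j • τ)) +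
          supFun f (ModularForm.heckeDiagMatrix q • τ) := by
        simp only [supFun, him, him', add_mul, Finset.mul_sum, Finset.sum_mul]
        congr 1
        · exact Finset.sum_congr rfl fun j _ => by rw [div_eq_mul_inv]; ring
        · ring
    _ ≤ _ := by
        refine add_le_add ((Finset.sum_le_card_nsmul _ _ S fun j _ => hS _).trans ?_) le_rfl
        rw [Finset.card_range, nsmul_eq_mul]

/-- **Strict trivial bound.** -/
theorem norm_eigenvalue_lt {q : ℕ} (hq : q.Prime) {f : CuspForm (Gamma0 N) 2} (hf : f ≠ 0) {c : ℂ}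
    (hc : ∀ τ, ModularForm.heckeT 2 q f τ = c * f τ) : ‖c‖ < q + 1 := by
  by_contra hle
  push Not at hle
  obtain ⟨τ₁, h₁⟩ : ∃ τ, f τ ≠ 0 := by
    by_contra h
    push Not at h
    exact hf (DFunLike.ext _ _ fun τ => h τ)
  obtain ⟨τ₀, hne, hmax⟩ := exists_supFun_max f (τ₁ := τ₁)
    (mul_ne_zero (norm_ne_zero_iff.mpr h₁) τ₁.im_ne_zero)
  set S := supFun f τ₀
  have hS0 : 0 < S := lt_of_le_of_ne (supFun_nonneg f τ₀) (Ne.symm hne)
  have step : ∀ τ, supFun f τ = S → supFun f (ModularForm.heckeDiagMatrix q • τ) = S := fun τ hτ => by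
    refine le_antisymm (hmax _) ?_
    have h := norm_mul_supFun_le hq.ne_zero hc hmax τ
    rw [hτ] at h
    nlinarith [mul_le_mul_of_nonneg_right hle hS0.le]
  let it : ℕ → ℍ := fun n => (fun τ => ModularForm.heckeDiagMatrix q • τ)^[n] τ₀
  have hit : ∀ n, supFun f (it n) = S ∧ (it n).im = (q : ℝ) ^ n * τ₀.im := by
    intro n
    induction n with
    | zero => exact ⟨rfl, by simp [it]⟩
    | succ n ih =>
      simp only [it, Function.iterate_succ_apply']
      refine ⟨step _ ih.1, ?_⟩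
      show ((ModularForm.heckeDiagMatrix q • it n : ℍ) : ℂ).im = _
      rw [ModularForm.coe_heckeDiagMatrix_smul hq.ne_zero, Complex.mul_im]
      simp only [Complex.natCast_re, Complex.natCast_im, zero_mul, add_zero, UpperHalfPlane.coe_im,
        ih.2]
      ring
  obtain ⟨y, hy⟩ := (atImInfty_mem _).mp ((tendsto_supFun f 1).eventually_lt_const hS0)
  obtain ⟨n, hn⟩ := pow_unbounded_of_one_lt (y / τ₀.im)
    (show (1 : ℝ) < q by exact_mod_cast hq.one_lt)
  have h := hy (it n) (by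
    rw [(hit n).2]
    exact ((div_lt_iff₀ τ₀.im_pos).mp hn).le)
  simp only [Set.mem_ofPred_eq, one_smul, (hit n).1] at h
  exact lt_irrefl _ h

end Fermat.Agent.HeckeEigen

end
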