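import Mathlib.LinearAlgebra.FiniteDimensional.Basic
import Fermat.Prelude.Def_FLTPrelim_Modularity
import Fermat.Prelude.Def_ModularForm_HeckeOperatorForms
import Fermat.Prelude.Thm_CongruenceSubgroup_one_mem_strictPeriods_Gamma0
import Fermat.Prelude.Thm_ModularFormClass_qCoeff_heckeT
import Fermat.Prelude.Thm_ModularFormClass_qCoeff_heckeU
import Fermat.Prelude.Thm_ModularForm_sturm_bound_Gamma0

/-!
# `q`-coefficients of cusp forms on `Γ₀(N)` as linear functionals
-/

set_option autoImplicit false

noncomputable section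

open UpperHalfPlane CongruenceSubgroup

namespace Fermat.Agent.HeckeEigen

variable {N : ℕ} {k : ℤ}

/-- The `n`-th `q`-coefficient as a linear functional on `S_k(Γ₀(N))`. -/
def qCoeffLin (N : ℕ) (k : ℤ) (n : ℕ) : CuspForm (Gamma0 N) k →ₗ[ℂ] ℂ where
  toFun f := ModularFormClass.qCoeff f n
  map_add' f g := by
    simp only [ModularFormClass.qCoeff, FunLike.coe_add]
    rw [ModularForm.qExpansion_add one_pos (one_mem_strictPeriods_Gamma0 N) f g, map_add]
  map_smul' c f := by
    simp only [ModularFormClass.qCoeff, FunLike.coe_smul, RingHom.id_apply, smul_eq_mul]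
    rw [ModularForm.qExpansion_smul one_pos (one_mem_strictPeriods_Gamma0 N) c f, map_smul,
      smul_eq_mul]

theorem qCoeffLin_apply (n : ℕ) (f : CuspForm (Gamma0 N) k) :
    qCoeffLin N k n f = ModularFormClass.qCoeff f n := rfl

/-- The constant term of a cusp form vanishes. -/
theorem qCoeff_zero (f : CuspForm (Gamma0 N) k) : ModularFormClass.qCoeff f 0 = 0 :=
  CuspFormClass.qExpansion_coeff_zero f one_pos (one_mem_strictPeriods_Gamma0 N)

/-- A cusp form regarded as a modular form. -/
def toModularForm (f : CuspForm (Gamma0 N) k) : ModularForm (Gamma0 N) k := (f : ModularForm _ k)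

theorem coe_toModularForm (f : CuspForm (Gamma0 N) k) : ⇑(toModularForm f) = ⇑f := rfl

theorem eq_zero_of_forall_qCoeff {f : CuspForm (Gamma0 N) k}
    (h : ∀ n, ModularFormClass.qCoeff f n = 0) : f = 0 := by
  have h0 : qExpansion 1 (toModularForm f) = 0 := PowerSeries.ext fun n => by
    simpa [coe_toModularForm, ModularFormClass.qCoeff] using h n
  rw [ModularForm.qExpansion_eq_zero_iff one_pos (one_mem_strictPeriods_Gamma0 N)] at h0
  exact DFunLike.ext f 0 fun z => congrArg (fun F : ModularForm (Gamma0 N) k => F z) h0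

theorem ext_qCoeff {f g : CuspForm (Gamma0 N) k}
    (h : ∀ n, ModularFormClass.qCoeff f n = ModularFormClass.qCoeff g n) : f = g :=
  sub_eq_zero.mp <| eq_zero_of_forall_qCoeff fun n => by
    rw [← qCoeffLin_apply, map_sub, qCoeffLin_apply, qCoeffLin_apply, h n, sub_self]

theorem qCoeff_heckeTLin {p : ℕ} (hp : p.Prime) (hpN : ¬ p ∣ N) (f : CuspForm (Gamma0 N) k)
    (n : ℕ) : ModularFormClass.qCoeff (CuspForm.heckeTLin k hp hpN f) n =
      ModularFormClass.qCoeff f (n * p) +
        if p ∣ n then (p : ℂ) ^ (k - 1) * ModularFormClass.qCoeff f (n / p) else 0 := by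
  rw [CuspForm.coe_heckeTLin_apply,
    ModularFormClass.qCoeff_heckeT f (one_mem_strictPeriods_Gamma0 N) hp.ne_zero,
    ModularForm.coeffHeckeT_apply]

theorem qCoeff_heckeULin [NeZero N] {p : ℕ} (hp : p ≠ 0) (hpN : p ∣ N)
    (f : CuspForm (Gamma0 N) k) (n : ℕ) :
    ModularFormClass.qCoeff (CuspForm.heckeULin k hpN f) n =
      ModularFormClass.qCoeff f (n * p) := by
  rw [CuspForm.coe_heckeULin_apply,
    ModularFormClass.qCoeff_heckeU f (one_mem_strictPeriods_Gamma0 N) hp,
    ModularForm.coeffHeckeU_apply]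

/-- The first `Sturm bound + 1` coefficients. -/
def sturmLin (N : ℕ) (k : ℤ) : CuspForm (Gamma0 N) k →ₗ[ℂ]
    (Fin ((k * (Gamma0 N).index).toNat / 12 + 1) → ℂ) :=
  LinearMap.pi fun n => qCoeffLin N k n

theorem sturmLin_injective (N : ℕ) [NeZero N] (k : ℤ) : Function.Injective (sturmLin N k) := by
  rw [← LinearMap.ker_eq_bot, LinearMap.ker_eq_bot']
  intro f hf
  have h0 : toModularForm f = 0 := ModularForm.sturm_bound_Gamma0 N _ fun n hn => by
    simpa [sturmLin, coe_toModularForm, qCoeffLin_apply, ModularFormClass.qCoeff] using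
      congrFun hf ⟨n, by omega⟩
  exact DFunLike.ext f 0 fun z => congrArg (fun F : ModularForm (Gamma0 N) k => F z) h0

/-- `S_k(Γ₀(N))` is finite dimensional. -/
theorem finiteDimensional_cuspForm (N : ℕ) [NeZero N] (k : ℤ) :
    FiniteDimensional ℂ (CuspForm (Gamma0 N) k) :=
  FiniteDimensional.of_injective (sturmLin N k) (sturmLin_injective N k)

end Fermat.Agent.HeckeEigen

end
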