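import Mathlib.Data.Nat.Factorization.Basic
import Mathlib.RingTheory.IntegralClosure.IsIntegralClosure.Basic
import Fermat.Prelude.Def_CuspForm_HeckeAlgebra
import Fermat.Agent.HeckeEigen.QCoeff

/-!
# Hecke eigenvectors and normalised eigenforms

The pairing `(t, f) ↦ a₁(t f)`, the elements `T_n` of the Hecke algebra, and the translation
between simultaneous eigenvectors and `CuspForm.IsNormalizedEigenform`.
-/

set_option autoImplicit false

noncomputable section

open CongruenceSubgroup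

namespace Fermat.Agent.HeckeEigen

variable {N : ℕ} [NeZero N] {k : ℤ}

/-- Abbreviation for `a₁ (t f)`. -/
def pairOne (t : CuspForm.heckeAlgebra N k ∅) (f : CuspForm (Gamma0 N) k) : ℂ :=
  ModularFormClass.qCoeff ((t : Module.End ℂ (CuspForm (Gamma0 N) k)) f) 1

theorem pairOne_apply (t : CuspForm.heckeAlgebra N k ∅) (f : CuspForm (Gamma0 N) k) :
    pairOne t f =
      qCoeffLin N k 1 ((t : Module.End ℂ (CuspForm (Gamma0 N) k)) f) := rfl

/-- For `n ≥ 1` the coefficient `a_n` is `a₁ ∘ T_n` for some `T_n` in the Hecke algebra. -/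
theorem exists_pairOne_eq_qCoeff (hk : 1 ≤ k) (n : ℕ) :
    0 < n → ∃ t : CuspForm.heckeAlgebra N k ∅, ∀ f : CuspForm (Gamma0 N) k,
      pairOne t f = ModularFormClass.qCoeff f n := by
  induction n using Nat.strong_induction_on with
  | _ n ih =>
    intro hn
    rcases Nat.eq_or_lt_of_le hn with h1 | h1
    · refine ⟨1, fun f => ?_⟩
      rw [← h1]
      rfl
    · obtain ⟨p, hp, m, rfl⟩ : ∃ p, p.Prime ∧ ∃ m, n = m * p :=
        ⟨n.minFac, Nat.minFac_prime (Nat.ne_of_gt h1), n / n.minFac,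
          (Nat.div_mul_cancel (Nat.minFac_dvd n)).symm⟩
      have hm : 0 < m := Nat.pos_of_ne_zero fun h => by simp [h] at hn
      have hmlt : m < m * p := by
        have := hp.two_le
        nlinarith
      obtain ⟨tm, htm⟩ := ih m hmlt hm
      by_cases hpN : p ∣ N
      · refine ⟨tm * CuspForm.heckeAlgebra.U hp hpN (Set.notMem_empty _), fun f => ?_⟩
        rw [← qCoeff_heckeULin hp.ne_zero hpN f m, ← htm]
        rfl
      · by_cases hpm : p ∣ m
        · obtain ⟨td, htd⟩ := ih (m / p) ((Nat.div_le_self m p).trans_lt hmlt)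
            (Nat.div_pos (Nat.le_of_dvd hm hpm) hp.pos)
          obtain ⟨j, hj⟩ := Int.eq_ofNat_of_zero_le (show 0 ≤ k - 1 by omega)
          refine ⟨tm * CuspForm.heckeAlgebra.T hp hpN (Set.notMem_empty _) - (p ^ j : ℤ) • td,
            fun f => ?_⟩
          have h := qCoeff_heckeTLin hp hpN f m
          rw [if_pos hpm, hj, zpow_natCast] at h
          simp only [pairOne_apply] at htm htd ⊢
          simp only [AddSubgroupClass.coe_sub, SetLike.val_smul, MulMemClass.coe_mul,
            LinearMap.sub_apply, LinearMap.smul_apply, Module.End.mul_apply, map_sub,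
            map_zsmul, CuspForm.heckeAlgebra.coe_T, htm, htd, h]
          rw [zsmul_eq_mul]
          push_cast
          ring
        · refine ⟨tm * CuspForm.heckeAlgebra.T hp hpN (Set.notMem_empty _), fun f => ?_⟩
          have h := qCoeff_heckeTLin hp hpN f m
          rw [if_neg hpm, add_zero] at h
          rw [← h, ← htm]
          rfl

/-- The pairing `(t, f) ↦ a₁ (t f)` is non-degenerate in `f`. -/
theorem eq_zero_of_forall_pairOne (hk : 1 ≤ k) {f : CuspForm (Gamma0 N) k}
    (h : ∀ t, pairOne t f = 0) : f = 0 := by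
  refine eq_zero_of_forall_qCoeff fun n => ?_
  rcases Nat.eq_zero_or_pos n with rfl | hn
  · exact qCoeff_zero f
  · obtain ⟨t, ht⟩ := exists_pairOne_eq_qCoeff (N := N) hk n hn
    rw [← ht, h]

theorem pairOne_mul (s t : CuspForm.heckeAlgebra N k ∅) (f : CuspForm (Gamma0 N) k) :
    pairOne (s * t) f = pairOne s ((t : Module.End ℂ (CuspForm (Gamma0 N) k)) f) := rfl

/-- If `t ↦ a₁ (t f)` is a ring homomorphism then `f` is a simultaneous eigenvector. -/
theorem apply_eq_smul_of_pairOne_mul (hk : 1 ≤ k) {f : CuspForm (Gamma0 N) k}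
    (φ : CuspForm.heckeAlgebra N k ∅ →+* ℂ) (h : ∀ t, pairOne t f = φ t)
    (t : CuspForm.heckeAlgebra N k ∅) :
    (t : Module.End ℂ (CuspForm (Gamma0 N) k)) f = φ t • f := by
  refine sub_eq_zero.mp (eq_zero_of_forall_pairOne hk fun s => ?_)
  have h1 : pairOne s ((t : Module.End ℂ (CuspForm (Gamma0 N) k)) f) = φ s * φ t := by
    rw [← pairOne_mul, h, map_mul]
  have h2 := h s
  simp only [pairOne_apply] at h1 h2 ⊢
  rw [map_sub, map_sub, map_smul, map_smul, h1, h2, smul_eq_mul, mul_comm, sub_self]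

/-- Every element of the Hecke algebra acts by a scalar on a common eigenvector of the
generators. -/
theorem exists_eigenvalue_of_generators {f : CuspForm (Gamma0 N) k}
    (hT : ∀ (p : ℕ) (hp : p.Prime) (hpN : ¬ p ∣ N), ∃ c : ℂ,
      CuspForm.heckeTLin k hp hpN f = c • f)
    (hU : ∀ (p : ℕ) (_ : p.Prime) (hpN : p ∣ N), ∃ c : ℂ,
      CuspForm.heckeULin k hpN f = c • f)
    (t : CuspForm.heckeAlgebra N k ∅) :
    ∃ c : ℂ, (t : Module.End ℂ (CuspForm (Gamma0 N) k)) f = c • f := by
  obtain ⟨t, ht⟩ := t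
  change ∃ c : ℂ, t f = c • f
  induction ht using Algebra.adjoin_induction with
  | mem x hx =>
    rcases hx with ⟨p, hp, hpN, -, rfl⟩ | ⟨p, hpN, hp, -, rfl⟩
    · exact hT p hp hpN
    · exact hU p hp hpN
  | algebraMap r => exact ⟨r, by simp [Int.cast_smul_eq_zsmul]⟩
  | add x y _ _ hx hy =>
    obtain ⟨c, hc⟩ := hx
    obtain ⟨d, hd⟩ := hy
    exact ⟨c + d, by rw [LinearMap.add_apply, hc, hd, add_smul]⟩
  | mul x y _ _ hx hy =>
    obtain ⟨c, hc⟩ := hx
    obtain ⟨d, hd⟩ := hy
    exact ⟨d * c, by rw [Module.End.mul_apply, hd, map_smul, hc, mul_smul]⟩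

/-- Coefficient recursion of a common eigenvector with `a₁ = 1` (the prime eigenvalue is `a_p`). -/
theorem qCoeff_mul_prime_of_eigen {f : CuspForm (Gamma0 N) k}
    (h1 : ModularFormClass.qCoeff f 1 = 1)
    (hT : ∀ (p : ℕ) (hp : p.Prime) (hpN : ¬ p ∣ N), ∃ c : ℂ,
      CuspForm.heckeTLin k hp hpN f = c • f)
    (hU : ∀ (p : ℕ) (_ : p.Prime) (hpN : p ∣ N), ∃ c : ℂ,
      CuspForm.heckeULin k hpN f = c • f)
    {p : ℕ} (hp : p.Prime) (n : ℕ) :
    ModularFormClass.qCoeff f (n * p) =
      ModularFormClass.qCoeff f p * ModularFormClass.qCoeff f n -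
        if ¬ p ∣ N ∧ p ∣ n then (p : ℂ) ^ (k - 1) * ModularFormClass.qCoeff f (n / p) else 0 := by
  by_cases hpN : p ∣ N
  · obtain ⟨c, hc⟩ := hU p hp hpN
    have key : ∀ m, ModularFormClass.qCoeff f (m * p) = c * ModularFormClass.qCoeff f m :=
      fun m => by
        rw [← qCoeff_heckeULin hp.ne_zero hpN f m, hc, ← qCoeffLin_apply, map_smul, smul_eq_mul,
          qCoeffLin_apply]
    have hp1 := key 1
    rw [one_mul, h1, mul_one] at hp1
    rw [key, hp1, if_neg (fun h => h.1 hpN), sub_zero]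
  · obtain ⟨c, hc⟩ := hT p hp hpN
    have key : ∀ m, ModularFormClass.qCoeff f (m * p) +
        (if p ∣ m then (p : ℂ) ^ (k - 1) * ModularFormClass.qCoeff f (m / p) else 0) =
        c * ModularFormClass.qCoeff f m :=
      fun m => by
        rw [← qCoeff_heckeTLin hp hpN f m, hc, ← qCoeffLin_apply, map_smul, smul_eq_mul,
          qCoeffLin_apply]
    have hp1 := key 1
    rw [one_mul, if_neg hp.not_dvd_one, add_zero, h1, mul_one] at hp1
    rw [hp1, ← key n]
    simp [hpN]

/-- Coefficients of a normalised common eigenvector are multiplicative. -/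
theorem qCoeff_mul_of_coprime_of_eigen {f : CuspForm (Gamma0 N) k}
    (h1 : ModularFormClass.qCoeff f 1 = 1)
    (hT : ∀ (p : ℕ) (hp : p.Prime) (hpN : ¬ p ∣ N), ∃ c : ℂ,
      CuspForm.heckeTLin k hp hpN f = c • f)
    (hU : ∀ (p : ℕ) (_ : p.Prime) (hpN : p ∣ N), ∃ c : ℂ,
      CuspForm.heckeULin k hpN f = c • f)
    (m n : ℕ) (h : m.Coprime n) :
    ModularFormClass.qCoeff f (m * n) =
      ModularFormClass.qCoeff f m * ModularFormClass.qCoeff f n := by
  induction m using Nat.strong_induction_on generalizing n with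
  | _ m ih =>
    rcases Nat.eq_zero_or_pos m with rfl | hm
    · rw [Nat.coprime_zero_left] at h
      simp [h, h1]
    rcases Nat.eq_or_lt_of_le hm with h2 | h2
    · simp [← h2, h1]
    obtain ⟨p, hp, m', rfl⟩ : ∃ p, p.Prime ∧ ∃ m', m = m' * p :=
      ⟨m.minFac, Nat.minFac_prime (Nat.ne_of_gt h2), m / m.minFac,
        (Nat.div_mul_cancel (Nat.minFac_dvd m)).symm⟩
    have hm' : 0 < m' := Nat.pos_of_ne_zero fun h0 => by simp [h0] at hm
    have hlt : m' < m' * p := by
      have := hp.two_le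
      nlinarith
    have hc' : m'.Coprime n := h.coprime_dvd_left (dvd_mul_right m' p)
    have hpn : p.Coprime n := h.coprime_dvd_left (dvd_mul_left p m')
    rw [mul_right_comm, qCoeff_mul_prime_of_eigen h1 hT hU hp,
      qCoeff_mul_prime_of_eigen h1 hT hU hp m', ih m' hlt n hc']
    by_cases hpm : p ∣ m'
    · have e : m' * n / p = m' / p * n := Nat.mul_div_right_comm hpm n
      have hlt' : m' / p < m' * p := (Nat.div_le_self m' p).trans_lt hlt
      have hc'' : (m' / p).Coprime n := hc'.coprime_dvd_left (Nat.div_dvd_of_dvd hpm)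
      simp only [hpm, hpm.mul_right n, e, ih _ hlt' n hc'']
      split_ifs <;> ring
    · have hpmn : ¬ p ∣ m' * n := fun hd => hpm (hpn.dvd_of_dvd_mul_right hd)
      simp only [hpm, hpmn, and_false, if_false, sub_zero]
      ring

/-- A common eigenvector of all `T_p`, `U_p` with `a₁ = 1` is a normalised eigenform. -/
theorem isNormalizedEigenform_of_eigen {f : CuspForm (Gamma0 N) 2}
    (h1 : ModularFormClass.qCoeff f 1 = 1)
    (hT : ∀ (p : ℕ) (hp : p.Prime) (hpN : ¬ p ∣ N), ∃ c : ℂ,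
      CuspForm.heckeTLin 2 hp hpN f = c • f)
    (hU : ∀ (p : ℕ) (_ : p.Prime) (hpN : p ∣ N), ∃ c : ℂ,
      CuspForm.heckeULin 2 hpN f = c • f) : f.IsNormalizedEigenform where
  qCoeff_one := h1
  qCoeff_mul_of_coprime := qCoeff_mul_of_coprime_of_eigen h1 hT hU
  qCoeff_prime_pow_of_not_dvd p r hp hpN := by
    rw [pow_succ p (r + 1), qCoeff_mul_prime_of_eigen h1 hT hU hp,
      if_pos ⟨hpN, dvd_pow_self p (Nat.succ_ne_zero r)⟩, pow_succ, Nat.mul_div_cancel _ hp.pos]
    norm_num
  qCoeff_prime_pow_of_dvd p r hp hpN := by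
    rw [pow_succ p (r + 1), qCoeff_mul_prime_of_eigen h1 hT hU hp, if_neg (fun h => h.1 hpN),
      sub_zero]

/-- If `t ↦ a₁ (t f)` is a ring homomorphism, `f` is a normalised eigenform. -/
theorem isNormalizedEigenform_of_pairOne_eq {f : CuspForm (Gamma0 N) 2}
    (φ : CuspForm.heckeAlgebra N 2 ∅ →+* ℂ) (h : ∀ t, pairOne t f = φ t) :
    f.IsNormalizedEigenform := by
  refine isNormalizedEigenform_of_eigen ((h 1).trans (map_one φ))
    (fun p hp hpN => ⟨_, apply_eq_smul_of_pairOne_mul (by norm_num) φ h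
      (CuspForm.heckeAlgebra.T hp hpN (Set.notMem_empty _))⟩)
    (fun p hp hpN => ⟨_, apply_eq_smul_of_pairOne_mul (by norm_num) φ h
      (CuspForm.heckeAlgebra.U hp hpN (Set.notMem_empty _))⟩)

theorem pairOne_T {p : ℕ} (hp : p.Prime) (hpN : ¬ p ∣ N) (f : CuspForm (Gamma0 N) k) :
    pairOne (CuspForm.heckeAlgebra.T hp hpN (Set.notMem_empty _)) f =
      ModularFormClass.qCoeff f p := by
  rw [pairOne, CuspForm.heckeAlgebra.coe_T, qCoeff_heckeTLin, one_mul, if_neg hp.not_dvd_one,
    add_zero]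

theorem pairOne_U {p : ℕ} (hp : p.Prime) (hpN : p ∣ N) (f : CuspForm (Gamma0 N) k) :
    pairOne (CuspForm.heckeAlgebra.U hp hpN (Set.notMem_empty _)) f =
      ModularFormClass.qCoeff f p := by
  rw [pairOne, CuspForm.heckeAlgebra.coe_U, qCoeff_heckeULin hp.ne_zero, one_mul]

omit [NeZero N] in
/-- The Hecke relation satisfied by the coefficients of a normalised eigenform. -/
theorem qCoeff_relation {f : CuspForm (Gamma0 N) 2} (hf : f.IsNormalizedEigenform)
    {p : ℕ} (hp : p.Prime) (n : ℕ) :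
    ModularFormClass.qCoeff f (n * p) =
      ModularFormClass.qCoeff f p * ModularFormClass.qCoeff f n -
        if ¬ p ∣ N ∧ p ∣ n then (p : ℂ) * ModularFormClass.qCoeff f (n / p) else 0 := by
  rcases Nat.eq_zero_or_pos n with rfl | hn
  · simp [qCoeff_zero]
  obtain ⟨r, m, hm, rfl⟩ := Nat.exists_eq_pow_mul_and_not_dvd hn.ne' p hp.ne_one
  have hcop : ∀ i, (p ^ i).Coprime m := fun i => ((hp.coprime_iff_not_dvd).mpr hm).pow_left i
  have e : p ^ r * m * p = p ^ (r + 1) * m := by ring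
  rw [e, hf.qCoeff_mul_of_coprime _ _ (hcop _), hf.qCoeff_mul_of_coprime _ _ (hcop _)]
  rcases r with _ | r
  · simp [hm, hf.qCoeff_one]
  have hd : p ∣ p ^ (r + 1) * m := (dvd_pow_self p r.succ_ne_zero).mul_right m
  have e' : p ^ (r + 1) * m / p = p ^ r * m := by
    rw [pow_succ, mul_right_comm, Nat.mul_div_cancel _ hp.pos]
  rw [e', hf.qCoeff_mul_of_coprime _ _ (hcop _)]
  by_cases hpN : p ∣ N
  · rw [if_neg (fun h => h.1 hpN), hf.qCoeff_prime_pow_of_dvd p r hp hpN]
    ring
  · rw [if_pos ⟨hpN, hd⟩, hf.qCoeff_prime_pow_of_not_dvd p r hp hpN]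
    ring

omit [NeZero N] in
theorem heckeTLin_apply_of_isNormalizedEigenform {f : CuspForm (Gamma0 N) 2}
    (hf : f.IsNormalizedEigenform) {p : ℕ} (hp : p.Prime) (hpN : ¬ p ∣ N) :
    CuspForm.heckeTLin 2 hp hpN f = ModularFormClass.qCoeff f p • f := by
  refine ext_qCoeff fun n => ?_
  rw [qCoeff_heckeTLin hp hpN, qCoeff_relation hf hp n, ← qCoeffLin_apply n (_ • f), map_smul,
    qCoeffLin_apply, smul_eq_mul]
  norm_num [hpN]

theorem heckeULin_apply_of_isNormalizedEigenform {f : CuspForm (Gamma0 N) 2}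
    (hf : f.IsNormalizedEigenform) {p : ℕ} (hp : p.Prime) (hpN : p ∣ N) :
    CuspForm.heckeULin 2 hpN f = ModularFormClass.qCoeff f p • f := by
  refine ext_qCoeff fun n => ?_
  rw [qCoeff_heckeULin hp.ne_zero hpN, qCoeff_relation hf hp n, ← qCoeffLin_apply n (_ • f),
    map_smul, qCoeffLin_apply, smul_eq_mul]
  simp [hpN]

theorem apply_eq_pairOne_smul_of_isNormalizedEigenform {f : CuspForm (Gamma0 N) 2}
    (hf : f.IsNormalizedEigenform) (t : CuspForm.heckeAlgebra N 2 ∅) :
    (t : Module.End ℂ (CuspForm (Gamma0 N) 2)) f = pairOne t f • f := by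
  obtain ⟨c, hc⟩ := exists_eigenvalue_of_generators
    (fun p hp hpN => ⟨_, heckeTLin_apply_of_isNormalizedEigenform hf hp hpN⟩)
    (fun p hp hpN => ⟨_, heckeULin_apply_of_isNormalizedEigenform hf hp hpN⟩) t
  rw [pairOne_apply, hc, map_smul, qCoeffLin_apply, hf.qCoeff_one, smul_eq_mul, mul_one]

/-- The eigensystem of a normalised eigenform as a ring homomorphism. -/
def eigenHom {f : CuspForm (Gamma0 N) 2} (hf : f.IsNormalizedEigenform) :
    CuspForm.heckeAlgebra N 2 ∅ →+* ℂ where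
  toFun t := pairOne t f
  map_one' := hf.qCoeff_one
  map_mul' s t := by
    rw [pairOne_mul, apply_eq_pairOne_smul_of_isNormalizedEigenform hf t, pairOne_apply s,
      map_smul, map_smul, smul_eq_mul, ← pairOne_apply, mul_comm]
  map_zero' := by simp [pairOne_apply]
  map_add' s t := by simp [pairOne_apply]

theorem eigenHom_apply {f : CuspForm (Gamma0 N) 2} (hf : f.IsNormalizedEigenform)
    (t : CuspForm.heckeAlgebra N 2 ∅) : eigenHom hf t = pairOne t f := rfl

theorem eigenHom_T {f : CuspForm (Gamma0 N) 2} (hf : f.IsNormalizedEigenform) {p : ℕ}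
    (hp : p.Prime) (hpN : ¬ p ∣ N) :
    eigenHom hf (CuspForm.heckeAlgebra.T hp hpN (Set.notMem_empty _)) =
      ModularFormClass.qCoeff f p := pairOne_T hp hpN f

theorem eigenHom_U {f : CuspForm (Gamma0 N) 2} (hf : f.IsNormalizedEigenform) {p : ℕ}
    (hp : p.Prime) (hpN : p ∣ N) :
    eigenHom hf (CuspForm.heckeAlgebra.U hp hpN (Set.notMem_empty _)) =
      ModularFormClass.qCoeff f p := pairOne_U hp hpN f

/-- If the Hecke algebra is finite over `ℤ`, eigenform coefficients are algebraic integers. -/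
theorem isIntegral_qCoeff_of_finite [Module.Finite ℤ (CuspForm.heckeAlgebra N 2 ∅)]
    {f : CuspForm (Gamma0 N) 2} (hf : f.IsNormalizedEigenform) (n : ℕ) :
    IsIntegral ℤ (ModularFormClass.qCoeff f n) := by
  rcases Nat.eq_zero_or_pos n with rfl | hn
  · rw [qCoeff_zero]
    exact isIntegral_zero
  · obtain ⟨t, ht⟩ := exists_pairOne_eq_qCoeff (N := N) (k := 2) (by norm_num) n hn
    rw [← ht f, ← eigenHom_apply hf]
    exact map_isIntegral_int (eigenHom hf) (Algebra.IsIntegral.isIntegral t)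

end Fermat.Agent.HeckeEigen

end
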