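import Mathlib.LinearAlgebra.Basis.VectorSpace
import Mathlib.LinearAlgebra.FreeModule.PID
import Mathlib.RingTheory.Localization.Module
import Fermat.Prelude.Def_CuspForm_IntegralStructure
import Fermat.Prelude.Thm_CuspForm_intLattice_fg
import Fermat.Prelude.Thm_CuspForm_mem_intLattice_of_mem_heckeAlgebra
import Fermat.Agent.HeckeEigen.Eigenform

/-!
# The Hecke algebra of a space with integral structure

With an integral structure the pairing `(t, f) ↦ a₁(t f)` embeds the Hecke algebra into a finite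
free `ℤ`-module, and every ring homomorphism to `ℂ` comes from a normalised eigenform.
-/

set_option autoImplicit false

noncomputable section

open CongruenceSubgroup

namespace Fermat.Agent.HeckeEigen

variable {N : ℕ} [NeZero N] {k : ℤ}

omit [NeZero N] in
theorem mem_intLattice_iff {f : CuspForm (Gamma0 N) k} :
    f ∈ CuspForm.intLattice N k ↔ ∀ n : ℕ, ∃ m : ℤ, ModularFormClass.qCoeff f n = (m : ℂ) := by
  refine ⟨fun hf => ?_, fun hf => Submodule.subset_span hf⟩
  induction hf using Submodule.span_induction with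
  | mem x hx => exact hx
  | zero =>
    intro n
    exact ⟨0, by rw [← qCoeffLin_apply, map_zero, Int.cast_zero]⟩
  | add x y _ _ hx hy =>
    intro n
    obtain ⟨a, ha⟩ := hx n
    obtain ⟨b, hb⟩ := hy n
    exact ⟨a + b, by
      rw [← qCoeffLin_apply, map_add, qCoeffLin_apply, qCoeffLin_apply, ha, hb, Int.cast_add]⟩
  | smul a x _ hx =>
    intro n
    obtain ⟨b, hb⟩ := hx n
    exact ⟨a * b, by
      rw [← qCoeffLin_apply, map_zsmul, qCoeffLin_apply, hb, zsmul_eq_mul, Int.cast_mul]⟩

theorem exists_int_pairOne (hk : 1 ≤ k) (t : CuspForm.heckeAlgebra N k ∅)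
    {f : CuspForm (Gamma0 N) k} (hf : f ∈ CuspForm.intLattice N k) :
    ∃ m : ℤ, pairOne t f = (m : ℂ) :=
  mem_intLattice_iff.mp (CuspForm.mem_intLattice_of_mem_heckeAlgebra hk t.2 hf) 1

/-- A finite set of forms with integral coefficients spanning over `ℂ`. -/
theorem exists_finset_intLattice_span (h : CuspForm.HasIntegralStructure N k) :
    ∃ s : Finset (CuspForm (Gamma0 N) k), (∀ f ∈ s, f ∈ CuspForm.intLattice N k) ∧
      Submodule.span ℂ (s : Set (CuspForm (Gamma0 N) k)) = ⊤ := by
  obtain ⟨s, hs⟩ := CuspForm.intLattice_fg N k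
  refine ⟨s, fun f hf => hs ▸ Submodule.subset_span hf, ?_⟩
  rw [← top_le_iff, ← h, Submodule.span_le, ← hs]
  exact Submodule.span_subset_span ℤ ℂ _

theorem eq_zero_of_pairOne_eq_zero_on_span (hk : 1 ≤ k) {s : Set (CuspForm (Gamma0 N) k)}
    (hs : Submodule.span ℂ s = ⊤) {t : CuspForm.heckeAlgebra N k ∅}
    (ht : ∀ f ∈ s, pairOne t f = 0) : t = 0 := by
  have h0 : (qCoeffLin N k 1).comp (t : Module.End ℂ (CuspForm (Gamma0 N) k)) = 0 :=
    LinearMap.ext_on hs ht
  refine Subtype.ext (LinearMap.ext fun g => eq_zero_of_forall_pairOne hk fun u => ?_)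
  rw [← pairOne_mul, mul_comm, pairOne_mul]
  exact LinearMap.congr_fun h0 _

/-- The Hecke algebra embeds in a finite free `ℤ`-module when there is an integral structure. -/
theorem exists_injective_pairInt (hk : 1 ≤ k) (h : CuspForm.HasIntegralStructure N k) :
    ∃ (s : Finset (CuspForm (Gamma0 N) k)) (Φ : CuspForm.heckeAlgebra N k ∅ →ₗ[ℤ] (s → ℤ)),
      Function.Injective Φ ∧ ∀ t (f : s), (Φ t f : ℂ) = pairOne t f := by
  obtain ⟨s, hs, hspan⟩ := exists_finset_intLattice_span h
  choose m hm using fun (t : CuspForm.heckeAlgebra N k ∅) (f : s) =>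
    exists_int_pairOne hk t (hs f f.2)
  let Φ : CuspForm.heckeAlgebra N k ∅ →ₗ[ℤ] (s → ℤ) := AddMonoidHom.toIntLinearMap
    { toFun := fun t f => m t f
      map_zero' := funext fun f => Int.cast_injective (α := ℂ) <| by
        simp [← hm, pairOne_apply]
      map_add' := fun a b => funext fun f => Int.cast_injective (α := ℂ) <| by
        simp [← hm, pairOne_apply] }
  refine ⟨s, Φ, (injective_iff_map_eq_zero Φ).mpr fun t ht => ?_, fun t f => (hm t f).symm⟩
  refine eq_zero_of_pairOne_eq_zero_on_span hk hspan fun f hf => ?_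
  rw [hm t ⟨f, hf⟩]
  exact_mod_cast congrFun ht ⟨f, hf⟩

/-- With an integral structure the Hecke algebra is a finite `ℤ`-module. -/
theorem finite_heckeAlgebra_of_integralStructure (hk : 1 ≤ k)
    (h : CuspForm.HasIntegralStructure N k) :
    Module.Finite ℤ (CuspForm.heckeAlgebra N k ∅) := by
  obtain ⟨s, Φ, hΦ, -⟩ := exists_injective_pairInt hk h
  exact Module.Finite.of_injective Φ hΦ

/-- Every additive functional on the Hecke algebra is `t ↦ a₁(t f)` for some form `f`. -/
theorem exists_pairOne_eq (hk : 1 ≤ k) (h : CuspForm.HasIntegralStructure N k)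
    (φ : CuspForm.heckeAlgebra N k ∅ →+ ℂ) :
    ∃ f : CuspForm (Gamma0 N) k, ∀ t, pairOne t f = φ t := by
  classical
  obtain ⟨s, Φ, hΦ, hΦv⟩ := exists_injective_pairInt hk h
  have := Module.Finite.of_injective Φ hΦ
  have : Module.Free ℤ (CuspForm.heckeAlgebra N k ∅) := Module.free_of_finite_type_torsion_free'
  let b := Module.Free.chooseBasis ℤ (CuspForm.heckeAlgebra N k ∅)
  let castQ : (s → ℤ) →ₗ[ℤ] (s → ℚ) := (Int.castAddHom ℚ).toIntLinearMap.compLeft s
  have hinj : Function.Injective (castQ.comp Φ) :=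
    (Function.Injective.comp_left Int.cast_injective).comp hΦ
  have hli : LinearIndependent ℤ fun i => castQ (Φ (b i)) :=
    b.linearIndependent.map' (castQ.comp Φ) (LinearMap.ker_eq_bot.mpr hinj)
  rw [LinearIndependent.iff_fractionRing ℤ ℚ] at hli
  obtain ⟨L, hL⟩ := LinearMap.exists_extend
    ((Finsupp.linearCombination ℚ fun i => φ (b i)).comp hli.repr)
  have hLb : ∀ i, L (castQ (Φ (b i))) = φ (b i) := fun i => by
    have := LinearMap.congr_fun hL ⟨_, Submodule.subset_span ⟨i, rfl⟩⟩
    simpa [hli.repr_eq_single i ⟨_, Submodule.subset_span ⟨i, rfl⟩⟩ rfl] using this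
  refine ⟨∑ f : s, L (Pi.single f 1) • (f : CuspForm (Gamma0 N) k), fun t => ?_⟩
  have hlin : ∀ i, pairOne (b i) (∑ f : s, L (Pi.single f 1) • (f : CuspForm (Gamma0 N) k)) =
      φ (b i) := fun i => by
    rw [← hLb i]
    conv_rhs => rw [pi_eq_sum_univ' (castQ (Φ (b i)))]
    simp only [pairOne_apply, map_sum, map_smul, smul_eq_mul]
    refine Finset.sum_congr rfl fun f _ => ?_
    rw [← pairOne_apply, ← hΦv, Rat.smul_def, mul_comm]
    simp [castQ]
  have key : (((qCoeffLin N k 1).comp ((LinearMap.applyₗ (R := ℂ)) (∑ f : s,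
      L (Pi.single f 1) • (f : CuspForm (Gamma0 N) k)))).toAddMonoidHom.comp
      (CuspForm.heckeAlgebra N k ∅).val.toAddMonoidHom).toIntLinearMap = φ.toIntLinearMap :=
    b.ext hlin
  exact LinearMap.congr_fun key t

/-- Every ring homomorphism from the full Hecke algebra to `ℂ` is the eigensystem of a
normalised eigenform. -/
theorem exists_eigenform_of_ringHom (h : CuspForm.HasIntegralStructure N 2)
    (φ : CuspForm.heckeAlgebra N 2 ∅ →+* ℂ) :
    ∃ (f : CuspForm (Gamma0 N) 2) (hf : f.IsNormalizedEigenform), eigenHom hf = φ := by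
  obtain ⟨f, hf⟩ := exists_pairOne_eq (by norm_num) h φ.toAddMonoidHom
  exact ⟨f, isNormalizedEigenform_of_pairOne_eq φ hf, RingHom.ext hf⟩

end Fermat.Agent.HeckeEigen

end
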