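import Mathlib.FieldTheory.IsAlgClosed.Basic
import Mathlib.RingTheory.Ideal.GoingUp
import Mathlib.RingTheory.Ideal.MinimalPrime.Localization
import Mathlib.Analysis.Complex.Polynomial.Basic
import Fermat.Agent.HeckeEigen.Lattice

/-!
# Deligne–Serre lifting

A mod `p` eigenvector with integral coefficients lifts to a normalised eigenform whose system of
eigenvalues is congruent to it modulo a maximal ideal of `integralClosure ℤ ℂ` above `p`.
-/

set_option autoImplicit false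

noncomputable section

open CongruenceSubgroup

namespace Fermat.Agent.HeckeEigen

/-- In a finite torsion-free `ℤ`-algebra every maximal ideal contains the kernel of a
homomorphism to `ℂ`. -/
theorem exists_ringHom_complex_ker_le {T : Type*} [CommRing T] [Module.Finite ℤ T]
    [IsAddTorsionFree T] (M : Ideal T) [M.IsMaximal] :
    ∃ φ : T →+* ℂ, RingHom.ker φ ≤ M := by
  obtain ⟨P, hP, hPM⟩ := Ideal.exists_minimalPrimes_le (I := (⊥ : Ideal T)) (J := M) bot_le
  have := hP.1.1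
  have : Nontrivial T := ⟨⟨0, 1, fun e => (Ideal.IsPrime.ne_top ‹P.IsPrime›)
    (Ideal.eq_top_of_isUnit_mem _ (e ▸ P.zero_mem) isUnit_one)⟩⟩
  have hdisj := Ideal.disjoint_nonZeroDivisors_of_mem_minimalPrimes hP
  have hn : ∀ n : ℤ, n ≠ 0 → (n : T) ∉ P := by
    intro n hn hmem
    refine Set.disjoint_left.mp hdisj hmem (mem_nonZeroDivisors_iff_right.mpr fun x hx => ?_)
    rw [mul_comm, ← zsmul_eq_mul] at hx
    exact (smul_eq_zero.mp hx).resolve_left hn
  have hinj : Function.Injective (algebraMap ℤ (T ⧸ P)) := by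
    refine (injective_iff_map_eq_zero _).mpr fun n hn' => ?_
    by_contra hne
    refine hn n hne (Ideal.Quotient.eq_zero_iff_mem.mp ?_)
    simpa using hn'
  have : FaithfulSMul ℤ (T ⧸ P) := (faithfulSMul_iff_algebraMap_injective _ _).mpr hinj
  have : Algebra.IsAlgebraic ℤ (T ⧸ P) := Algebra.IsIntegral.isAlgebraic
  let g : (T ⧸ P) →ₐ[ℤ] ℂ := IsAlgClosed.lift
  have hg : Function.Injective g := by
    refine (injective_iff_map_eq_zero g).mpr fun x hx => ?_
    by_contra hx0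
    obtain ⟨r, hr, hr0⟩ := Algebra.IsAlgebraic.isAlgebraic (R := ℤ) x |>.exists_nonzero_dvd
      (mem_nonZeroDivisors_of_ne_zero hx0)
    obtain ⟨y, hy⟩ := hr0
    have := congrArg g hy
    rw [g.commutes, map_mul, hx, zero_mul] at this
    exact hr ((algebraMap ℤ ℂ).injective_int (by simpa using this))
  refine ⟨g.toRingHom.comp (Ideal.Quotient.mk P), le_trans (fun x hx => ?_) hPM⟩
  rw [RingHom.mem_ker, RingHom.comp_apply] at hx
  exact Ideal.Quotient.eq_zero_iff_mem.mp (hg (hx.trans (map_zero g).symm))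

/-- A homomorphism from a finite `ℤ`-algebra to `ℂ` lands in the algebraic integers, and a maximal
ideal containing its kernel extends to the algebraic integers. -/
theorem exists_maximal_over {T : Type*} [CommRing T] [Module.Finite ℤ T] (φ : T →+* ℂ)
    (M : Ideal T) [M.IsMaximal] (hM : RingHom.ker φ ≤ M) :
    ∃ (φ' : T →+* integralClosure ℤ ℂ) (Q : Ideal (integralClosure ℤ ℂ)),
      (∀ t, (φ' t : ℂ) = φ t) ∧ Q.IsMaximal ∧ ∀ t, t ∈ M → φ' t ∈ Q := by
  let φ' : T →+* integralClosure ℤ ℂ := φ.codRestrict _ fun t =>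
    map_isIntegral_int φ (Algebra.IsIntegral.isIntegral t)
  let _ : Algebra T (integralClosure ℤ ℂ) := φ'.toAlgebra
  have : IsScalarTower ℤ T (integralClosure ℤ ℂ) :=
    IsScalarTower.of_algebraMap_eq' (Subsingleton.elim _ _)
  have : Algebra.IsIntegral T (integralClosure ℤ ℂ) := ⟨fun x =>
    IsIntegral.tower_top (R := ℤ) (Algebra.IsIntegral.isIntegral x)⟩
  obtain ⟨Q, hQ, hQM⟩ := Ideal.exists_ideal_over_maximal_of_isIntegral (S := integralClosure ℤ ℂ) M
    (fun t ht => hM (congrArg Subtype.val (RingHom.mem_ker.mp ht)))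
  exact ⟨φ', Q, fun t => rfl, hQ, fun t ht => by rw [← hQM] at ht; exact ht⟩

variable {N : ℕ} [NeZero N] {k : ℤ}

/-- `f` is a mod `p` eigenvector for `t`. -/
def IsModEigen (p : ℕ) (f : CuspForm (Gamma0 N) k) (t : CuspForm.heckeAlgebra N k ∅) (c : ℤ) :
    Prop :=
  ∃ g ∈ CuspForm.intLattice N k,
    (t : Module.End ℂ (CuspForm (Gamma0 N) k)) f = c • f + (p : ℤ) • g

theorem isModEigen_of_dvd (p : ℕ) [NeZero p] {f : CuspForm (Gamma0 N) k}
    (t : CuspForm.heckeAlgebra N k ∅) (c : ℤ)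
    (h : ∀ n, ∃ m : ℤ, ModularFormClass.qCoeff
      ((t : Module.End ℂ (CuspForm (Gamma0 N) k)) f) n -
        (c : ℂ) * ModularFormClass.qCoeff f n = (p : ℂ) * m) :
    IsModEigen p f t c := by
  have hp : (p : ℂ) ≠ 0 := Nat.cast_ne_zero.mpr (NeZero.ne p)
  refine ⟨(p : ℂ)⁻¹ • ((t : Module.End ℂ (CuspForm (Gamma0 N) k)) f - (c : ℂ) • f),
    mem_intLattice_iff.mpr fun n => ?_, ?_⟩
  · obtain ⟨m, hm⟩ := h n
    refine ⟨m, ?_⟩
    rw [← qCoeffLin_apply, map_smul, map_sub, map_smul, qCoeffLin_apply, qCoeffLin_apply,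
      smul_eq_mul, smul_eq_mul, hm, ← mul_assoc, inv_mul_cancel₀ hp, one_mul]
  · rw [← Int.cast_smul_eq_zsmul ℂ c, ← Int.cast_smul_eq_zsmul ℂ (p : ℤ), smul_smul,
      Int.cast_natCast, mul_inv_cancel₀ hp, one_smul, add_sub_cancel]

theorem exists_isModEigen_of_generators (hk : 1 ≤ k) (p : ℕ) {f : CuspForm (Gamma0 N) k}
    (hT : ∀ (ℓ : ℕ) (hℓ : ℓ.Prime) (hℓN : ¬ ℓ ∣ N),
      ∃ c, IsModEigen p f (CuspForm.heckeAlgebra.T hℓ hℓN (Set.notMem_empty _)) c)
    (hU : ∀ (ℓ : ℕ) (hℓ : ℓ.Prime) (hℓN : ℓ ∣ N),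
      ∃ c, IsModEigen p f (CuspForm.heckeAlgebra.U hℓ hℓN (Set.notMem_empty _)) c)
    (t : CuspForm.heckeAlgebra N k ∅) : ∃ c, IsModEigen p f t c := by
  obtain ⟨t, ht⟩ := t
  induction ht using Algebra.adjoin_induction with
  | mem x hx =>
    rcases hx with ⟨ℓ, hℓ, hℓN, -, rfl⟩ | ⟨ℓ, hℓN, hℓ, -, rfl⟩
    · exact hT ℓ hℓ hℓN
    · exact hU ℓ hℓ hℓN
  | algebraMap r =>
    exact ⟨r, 0, zero_mem _, by simp⟩
  | add x y hx' hy' hx hy =>
    obtain ⟨c, g, hg, hc⟩ := hx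
    obtain ⟨d, g', hg', hd⟩ := hy
    refine ⟨c + d, g + g', add_mem hg hg', ?_⟩
    change x f + y f = _
    rw [hc, hd]
    module
  | mul x y hx' hy' hx hy =>
    obtain ⟨c, g, hg, hc⟩ := hx
    obtain ⟨d, g', hg', hd⟩ := hy
    refine ⟨d * c, d • g + x g', add_mem (Submodule.smul_mem _ d hg)
      (CuspForm.mem_intLattice_of_mem_heckeAlgebra hk hx' hg'), ?_⟩
    change x (y f) = _
    rw [hd, map_add, map_zsmul, map_zsmul, hc]
    module

/-- The mod `p` eigensystem of a mod `p` eigenvector with `a₁ ≡ 1`. -/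
theorem exists_modHom (p : ℕ) {f : CuspForm (Gamma0 N) k} (hk : 1 ≤ k)
    (hf : f ∈ CuspForm.intLattice N k) {a₁ : ℤ} (ha₁ : ModularFormClass.qCoeff f 1 = (a₁ : ℂ))
    (ha : (a₁ : ZMod p) = 1) (h : ∀ t, ∃ c, IsModEigen p f t c) :
    ∃ ψ : CuspForm.heckeAlgebra N k ∅ →+* ZMod p, ∀ t c, IsModEigen p f t c → ψ t = c := by
  choose m hm using fun t : CuspForm.heckeAlgebra N k ∅ => exists_int_pairOne hk t hf
  have huniq : ∀ t c, IsModEigen p f t c → (m t : ZMod p) = c := by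
    rintro t c ⟨g, hg, hgc⟩
    obtain ⟨b, hb⟩ := mem_intLattice_iff.mp hg 1
    have h1 := hm t
    rw [pairOne_apply, hgc, map_add, map_zsmul, map_zsmul, qCoeffLin_apply, qCoeffLin_apply, ha₁,
      hb, zsmul_eq_mul, zsmul_eq_mul] at h1
    norm_cast at h1
    rw [← h1]
    push_cast
    simp [ha]
  have hadd : ∀ s t, (m (s + t) : ZMod p) = m s + m t := by
    intro s t
    have h1 : m (s + t) = m s + m t := Int.cast_injective (α := ℂ) <| by
      simp [← hm, pairOne_apply]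
    rw [h1, Int.cast_add]
  refine ⟨{ toFun := fun t => (m t : ZMod p), map_one' := ?_, map_mul' := ?_, map_zero' := ?_,
            map_add' := hadd }, huniq⟩
  · simpa using huniq 1 1 ⟨0, zero_mem _, by simp⟩
  · intro s t
    obtain ⟨c, g, hg, hc⟩ := h s
    obtain ⟨d, g', hg', hd⟩ := h t
    rw [huniq s c ⟨g, hg, hc⟩, huniq t d ⟨g', hg', hd⟩, ← Int.cast_mul]
    refine huniq (s * t) (c * d) ⟨d • g + (s : Module.End ℂ (CuspForm (Gamma0 N) k)) g',
      add_mem (Submodule.smul_mem _ d hg)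
        (CuspForm.mem_intLattice_of_mem_heckeAlgebra hk s.2 hg'), ?_⟩
    change (s : Module.End ℂ (CuspForm (Gamma0 N) k))
      ((t : Module.End ℂ (CuspForm (Gamma0 N) k)) f) = _
    rw [hd, map_add, map_zsmul, map_zsmul, hc]
    module
  · exact add_left_cancel (a := (m (0 + 0) : ZMod p)) (by rw [← hadd]; simp)

/-- Deligne–Serre lifting from a mod `p` system of eigenvalues of the Hecke algebra. -/
theorem exists_eigenform_congruent (h : CuspForm.HasIntegralStructure N 2) (p : ℕ) [Fact p.Prime]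
    (ψ : CuspForm.heckeAlgebra N 2 ∅ →+* ZMod p) :
    ∃ (f : CuspForm (Gamma0 N) 2) (hf : f.IsNormalizedEigenform)
      (φ' : CuspForm.heckeAlgebra N 2 ∅ →+* integralClosure ℤ ℂ)
      (Q : Ideal (integralClosure ℤ ℂ)), Q.IsMaximal ∧ ((p : ℕ) : integralClosure ℤ ℂ) ∈ Q ∧
      (∀ t, (φ' t : ℂ) = eigenHom hf t) ∧ ∀ (t : CuspForm.heckeAlgebra N 2 ∅) (c : ℤ),
        ψ t = (c : ZMod p) → φ' t - (c : integralClosure ℤ ℂ) ∈ Q := by
  have := finite_heckeAlgebra_of_integralStructure (by norm_num : (1 : ℤ) ≤ 2) h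
  have : (RingHom.ker ψ).IsMaximal :=
    RingHom.ker_isMaximal_of_surjective ψ (ZMod.ringHom_surjective ψ)
  obtain ⟨φ, hφ⟩ := exists_ringHom_complex_ker_le (RingHom.ker ψ)
  obtain ⟨f, hf, hfφ⟩ := exists_eigenform_of_ringHom h φ
  obtain ⟨φ', Q, hφ', hQ, hQM⟩ := exists_maximal_over φ (RingHom.ker ψ) hφ
  refine ⟨f, hf, φ', Q, hQ, ?_, fun t => by rw [hφ', hfφ], fun t c hc => ?_⟩
  · simpa using hQM (p : CuspForm.heckeAlgebra N 2 ∅) (by simp)
  · simpa using hQM (t - c) (by simp [hc])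

end Fermat.Agent.HeckeEigen

end
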